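import Mathlib
import Fermat.Prelude.Def_EllipticCurve_FrobeniusTrace

set_option autoImplicit false

namespace Fermat.Agent.S54

open Polynomial

section Kaplansky

variable {B L : Type*} [CommRing B] [Field L] [Algebra B L] [IsIntegrallyClosedIn B L]

/-- Kaplansky's `u, u⁻¹` lemma, in a localisation-free form. -/
theorem exists_mul_eq_or_of_aeval_eq_zero (Q : Ideal B) [Q.IsPrime] (u : L) :
    ∀ (n : ℕ) (p : B[X]), p.natDegree ≤ n → aeval u p = 0 → (∃ i, p.coeff i ∉ Q) →
      (∃ b s : B, s ∉ Q ∧ u * algebraMap B L s = algebraMap B L b) ∨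
      (∃ b s : B, s ∉ Q ∧ u * algebraMap B L b = algebraMap B L s) := by
  intro n
  induction n with
  | zero =>
    intro p hp hu ⟨i, hi⟩
    exfalso
    rw [Nat.le_zero] at hp
    rw [Polynomial.eq_C_of_natDegree_eq_zero hp] at hu hi
    rw [aeval_C] at hu
    have h0 : p.coeff 0 = 0 := by
      have hinj : Function.Injective (algebraMap B L) :=
        IsIntegralClosure.algebraMap_injective B B L
      exact hinj (by rw [hu, map_zero])
    rw [h0] at hi
    simp at hi
  | succ n ih =>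
    intro p hp hu ⟨i, hi⟩
    by_cases hdeg : p.natDegree ≤ n
    · exact ih p hdeg hu ⟨i, hi⟩
    have hpn : p.natDegree = n + 1 := by omega
    obtain ⟨c, hc⟩ : ∃ c : B, algebraMap B L c = p.leadingCoeff • u :=
      IsIntegrallyClosedIn.isIntegral_iff.mp (isIntegral_leadingCoeff_smul p u hu)
    rw [Algebra.smul_def] at hc
    by_cases ha : p.leadingCoeff ∈ Q
    · by_cases hcQ : c ∈ Q
      · refine ih (p.eraseLead + C c * X ^ n) ?_ ?_ ?_
        · refine (natDegree_add_le _ _).trans (max_le ?_ ?_)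
          · have := p.eraseLead_natDegree_le
            omega
          · exact natDegree_C_mul_X_pow_le _ _
        · have h1 : aeval u p.eraseLead = - (algebraMap B L p.leadingCoeff * u ^ (n + 1)) := by
            have := p.eraseLead_add_C_mul_X_pow
            have h2 : aeval u (p.eraseLead + C p.leadingCoeff * X ^ p.natDegree) = 0 := by
              rw [this, hu]
            rw [map_add, map_mul, aeval_C, map_pow, aeval_X, hpn] at h2
            exact eq_neg_of_add_eq_zero_left h2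
          rw [map_add, h1, map_mul, aeval_C, map_pow, aeval_X, hc]
          ring
        · have hin : i ≠ n + 1 := by
            rintro rfl
            apply hi
            rwa [← hpn]
          refine ⟨i, ?_⟩
          rw [coeff_add, eraseLead_coeff_of_ne _ (by rwa [hpn]), coeff_C_mul, coeff_X_pow]
          intro h
          apply hi
          have h3 : c * (if i = n then 1 else 0) ∈ Q := Q.mul_mem_right _ hcQ
          exact (Ideal.add_mem_iff_left Q h3).mp h
      · right
        exact ⟨p.leadingCoeff, c, hcQ, by rw [hc, mul_comm]⟩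
    · left
      exact ⟨c, p.leadingCoeff, ha, by rw [hc, mul_comm]⟩

end Kaplansky

section Main

open scoped Pointwise

instance isAlgebraicQbar : Algebra.IsAlgebraic ℚ (AlgebraicClosure ℚ) :=
  AlgebraicClosure.isAlgebraic ℚ
instance isAlgClosureQbar : IsAlgClosure ℚ (AlgebraicClosure ℚ) :=
  ⟨inferInstance, inferInstance⟩

instance isInvariant_integralClosure :
    Algebra.IsInvariant ℤ (integralClosure ℤ (AlgebraicClosure ℚ))
      (AlgebraicClosure ℚ ≃ₐ[ℚ] AlgebraicClosure ℚ) := by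
  refine ⟨fun b hb => ?_⟩
  have h1 : (b : AlgebraicClosure ℚ) ∈ Set.range (algebraMap ℚ (AlgebraicClosure ℚ)) := by
    rw [InfiniteGalois.mem_range_algebraMap_iff_fixed]
    intro f
    exact congrArg Subtype.val (hb f)
  obtain ⟨r, hr⟩ := h1
  have h2 : IsIntegral ℤ (algebraMap ℚ (AlgebraicClosure ℚ) r) := by
    rw [hr]; exact b.2
  rw [isIntegral_algebraMap_iff (algebraMap ℚ (AlgebraicClosure ℚ)).injective,
    IsIntegrallyClosed.isIntegral_iff] at h2
  obtain ⟨a, rfl⟩ := h2
  refine ⟨a, Subtype.ext ?_⟩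
  rw [← hr]
  simp

theorem exists_stabilizer_frobenius {ℓ : ℕ} (hℓ : ℓ.Prime)
    (Q : Ideal (integralClosure ℤ (AlgebraicClosure ℚ))) [Q.IsPrime]
    (hQ : (ℓ : integralClosure ℤ (AlgebraicClosure ℚ)) ∈ Q) :
    ∃ σ : AlgebraicClosure ℚ ≃ₐ[ℚ] AlgebraicClosure ℚ, σ • Q = Q ∧
      ∀ x : integralClosure ℤ (AlgebraicClosure ℚ), σ • x - x ^ ℓ ∈ Q := by
  set P : Ideal ℤ := Ideal.span {(ℓ : ℤ)} with hP
  have hPmax : P.IsMaximal :=
    PrincipalIdealRing.isMaximal_of_irreducible (Nat.prime_iff_prime_int.mp hℓ).irreducible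
  have hle : P ≤ Q.under ℤ := by
    rw [hP, Ideal.span_le, Set.singleton_subset_iff]
    show algebraMap ℤ _ (ℓ : ℤ) ∈ Q
    simpa using hQ
  have hPQ : P = Q.under ℤ :=
    hPmax.eq_of_le (Ideal.IsPrime.ne_top inferInstance) hle
  have : Q.LiesOver P := ⟨hPQ⟩
  have hQmax : Q.IsMaximal := by
    apply Ideal.isMaximal_of_isIntegral_of_isMaximal_comap (R := ℤ) Q
    have : Ideal.comap (algebraMap ℤ _) Q = P := hPQ.symm
    rw [this]; exact hPmax
  let : TopologicalSpace (integralClosure ℤ (AlgebraicClosure ℚ)) := ⊥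
  have : DiscreteTopology (integralClosure ℤ (AlgebraicClosure ℚ)) := ⟨rfl⟩
  have : ContinuousSMul (AlgebraicClosure ℚ ≃ₐ[ℚ] AlgebraicClosure ℚ)
      (integralClosure ℤ (AlgebraicClosure ℚ)) := by
    refine continuousSMul_iff_stabilizer_isOpen.mpr (fun x => ?_)
    convert stabilizer_isOpen_of_isIntegral (K := ℚ) (x : AlgebraicClosure ℚ) using 2
    ext g
    simp [MulAction.mem_stabilizer_iff, Subtype.ext_iff]
  let := Ideal.Quotient.field Q
  let := Ideal.Quotient.field P
  have : CharP (integralClosure ℤ (AlgebraicClosure ℚ) ⧸ Q) ℓ := by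
    rw [CharP.charP_iff_prime_eq_zero hℓ]
    have := Ideal.Quotient.eq_zero_iff_mem.mpr hQ
    simpa using this
  have : ExpChar (integralClosure ℤ (AlgebraicClosure ℚ) ⧸ Q) ℓ := ExpChar.prime hℓ
  let F : (integralClosure ℤ (AlgebraicClosure ℚ) ⧸ Q) →ₐ[ℤ ⧸ P]
      (integralClosure ℤ (AlgebraicClosure ℚ) ⧸ Q) :=
    { frobenius (integralClosure ℤ (AlgebraicClosure ℚ) ⧸ Q) ℓ with
      commutes' := by
        intro r
        obtain ⟨a, rfl⟩ := Ideal.Quotient.mk_surjective r
        have h1 : Ideal.Quotient.mk P a = ((a : ℤ) : ℤ ⧸ P) := by simp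
        rw [h1]
        simp }
  let Fe := AlgEquiv.ofBijective F (Algebra.IsAlgebraic.algHom_bijective F)
  obtain ⟨σ, hσ⟩ := Ideal.Quotient.stabilizerHom_surjective_of_profinite
    (G := AlgebraicClosure ℚ ≃ₐ[ℚ] AlgebraicClosure ℚ) P Q Fe
  refine ⟨σ.1, σ.2, fun x => ?_⟩
  rw [← Ideal.Quotient.eq]
  have := DFunLike.congr_fun hσ (Ideal.Quotient.mk Q x)
  rw [Ideal.Quotient.stabilizerHom_apply] at this
  rw [map_pow]
  exact this

theorem coe_integralClosure_mem (A : ValuationSubring (AlgebraicClosure ℚ))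
    (b : integralClosure ℤ (AlgebraicClosure ℚ)) : (b : AlgebraicClosure ℚ) ∈ A := by
  have h1 : IsIntegral A (b : AlgebraicClosure ℚ) := b.2.tower_top
  obtain ⟨y, hy⟩ := IsIntegrallyClosed.isIntegral_iff.mp h1
  rw [← hy]
  exact y.2

/-- The inclusion of the ring of all algebraic integers in a valuation subring. -/
def inclHom (A : ValuationSubring (AlgebraicClosure ℚ)) :
    integralClosure ℤ (AlgebraicClosure ℚ) →+* A where
  toFun b := ⟨b, coe_integralClosure_mem A b⟩
  map_one' := rfl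
  map_mul' _ _ := rfl
  map_zero' := rfl
  map_add' _ _ := rfl

/-- The centre of a valuation subring on the ring of all algebraic integers. -/
noncomputable def centre (A : ValuationSubring (AlgebraicClosure ℚ)) :
    Ideal (integralClosure ℤ (AlgebraicClosure ℚ)) :=
  (IsLocalRing.maximalIdeal A).comap (inclHom A)

instance centre_isPrime (A : ValuationSubring (AlgebraicClosure ℚ)) : (centre A).IsPrime :=
  Ideal.comap_isPrime _ _

theorem mem_centre_iff {A : ValuationSubring (AlgebraicClosure ℚ)}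
    {b : integralClosure ℤ (AlgebraicClosure ℚ)} :
    b ∈ centre A ↔ A.valuation (b : AlgebraicClosure ℚ) < 1 :=
  A.valuation_lt_one_iff (inclHom A b)

theorem valuation_coe_le_one (A : ValuationSubring (AlgebraicClosure ℚ))
    (b : integralClosure ℤ (AlgebraicClosure ℚ)) : A.valuation (b : AlgebraicClosure ℚ) ≤ 1 :=
  (A.valuation_le_one_iff _).mpr (coe_integralClosure_mem A b)

theorem valuation_eq_one_of_notMem_centre {A : ValuationSubring (AlgebraicClosure ℚ)}
    {b : integralClosure ℤ (AlgebraicClosure ℚ)} (hb : b ∉ centre A) :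
    A.valuation (b : AlgebraicClosure ℚ) = 1 :=
  le_antisymm (valuation_coe_le_one A b) (not_lt.mp (fun h => hb (mem_centre_iff.mpr h)))

theorem exists_primitive_root_poly {ℓ : ℕ} (hℓ : ℓ.Prime) (u : AlgebraicClosure ℚ) :
    ∃ p : ℤ[X], aeval u p = 0 ∧ ∃ i, ¬ (ℓ : ℤ) ∣ p.coeff i := by
  have halg : IsAlgebraic ℤ u :=
    (IsFractionRing.isAlgebraic_iff ℤ ℚ (AlgebraicClosure ℚ)).mpr
      (Algebra.IsAlgebraic.isAlgebraic u)
  obtain ⟨p, hp0, hp⟩ := halg
  refine ⟨p.primPart, Polynomial.aeval_primPart_eq_zero hp0 hp, ?_⟩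
  by_contra hcon
  push Not at hcon
  have h1 : C (ℓ : ℤ) ∣ p.primPart := (Polynomial.C_dvd_iff_dvd_coeff _ _).mpr hcon
  have h2 := p.isPrimitive_primPart (ℓ : ℤ) h1
  exact (Nat.prime_iff_prime_int.mp hℓ).not_isUnit h2

theorem exists_fraction_of_mem {ℓ : ℕ} (hℓ : ℓ.Prime)
    {A : ValuationSubring (AlgebraicClosure ℚ)} (hA : A.LiesOverPrime ℓ)
    {x : AlgebraicClosure ℚ} (hx : x ∈ A) :
    ∃ b s : integralClosure ℤ (AlgebraicClosure ℚ), s ∉ centre A ∧
      x * (s : AlgebraicClosure ℚ) = (b : AlgebraicClosure ℚ) := by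
  obtain ⟨p, hp, i, hi⟩ := exists_primitive_root_poly hℓ x
  have hcoeff : (p.map (algebraMap ℤ (integralClosure ℤ (AlgebraicClosure ℚ)))).coeff i ∉
      centre A := by
    intro hmem
    rw [coeff_map, mem_centre_iff] at hmem
    have hcop : IsCoprime (ℓ : ℤ) (p.coeff i) :=
      ((Nat.prime_iff_prime_int.mp hℓ).coprime_iff_not_dvd).mpr hi
    obtain ⟨a, b, hab⟩ := hcop
    have h1 : A.valuation ((ℓ : ℤ) : AlgebraicClosure ℚ) < 1 := by
      have := A.mem_nonunits_iff.mp hA
      simpa using this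
    have h2 : A.valuation ((p.coeff i : ℤ) : AlgebraicClosure ℚ) < 1 := by
      simpa using hmem
    have hZ : ∀ n : ℤ, A.valuation ((n : ℤ) : AlgebraicClosure ℚ) ≤ 1 := fun n =>
      (A.valuation_le_one_iff _).mpr (intCast_mem A n)
    have h3 : A.valuation (((a * ℓ + b * p.coeff i : ℤ)) : AlgebraicClosure ℚ) < 1 := by
      push_cast
      refine A.valuation.map_add_lt ?_ ?_
      · rw [map_mul]
        exact mul_lt_one_of_nonneg_of_lt_one_right (hZ a) zero_le (by simpa using h1)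
      · rw [map_mul]
        exact mul_lt_one_of_nonneg_of_lt_one_right (hZ b) zero_le h2
    rw [hab] at h3
    simp at h3
  have haeval : aeval x (p.map (algebraMap ℤ (integralClosure ℤ (AlgebraicClosure ℚ)))) = 0 := by
    rw [aeval_map_algebraMap, hp]
  rcases exists_mul_eq_or_of_aeval_eq_zero (centre A) x _ _ le_rfl haeval ⟨i, hcoeff⟩ with
    ⟨b, s, hs, h⟩ | ⟨b, s, hs, h⟩
  · exact ⟨b, s, hs, h⟩
  · refine ⟨s, b, fun hb => ?_, h⟩
    have h1 := valuation_eq_one_of_notMem_centre hs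
    have h2 : A.valuation (b : AlgebraicClosure ℚ) < 1 := mem_centre_iff.mp hb
    have h3 : A.valuation x ≤ 1 := (A.valuation_le_one_iff _).mpr hx
    have h4 : A.valuation (x * (b : AlgebraicClosure ℚ)) < 1 := by
      rw [map_mul]
      exact mul_lt_one_of_nonneg_of_lt_one_right h3 zero_le h2
    have h5 : A.valuation (x * (b : AlgebraicClosure ℚ)) = 1 := by
      rw [← h1]; exact congrArg _ h
    rw [h5] at h4
    exact lt_irrefl _ h4

theorem smul_mem_of_smul_centre {ℓ : ℕ} (hℓ : ℓ.Prime)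
    {A : ValuationSubring (AlgebraicClosure ℚ)} (hA : A.LiesOverPrime ℓ)
    {σ : AlgebraicClosure ℚ ≃ₐ[ℚ] AlgebraicClosure ℚ} (hσ : σ • centre A = centre A)
    {x : AlgebraicClosure ℚ} (hx : x ∈ A) : σ • x ∈ A := by
  obtain ⟨b, s, hs, h⟩ := exists_fraction_of_mem hℓ hA hx
  have hs' : σ • s ∉ centre A := by
    intro hmem
    rw [← hσ, Ideal.smul_mem_pointwise_smul_iff] at hmem
    exact hs hmem
  have h1 : σ • x * ((σ • s : integralClosure ℤ (AlgebraicClosure ℚ)) : AlgebraicClosure ℚ) =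
      ((σ • b : integralClosure ℤ (AlgebraicClosure ℚ)) : AlgebraicClosure ℚ) := by
    rw [integralClosure.coe_smul, integralClosure.coe_smul, ← smul_mul', h]
  rw [← A.valuation_le_one_iff]
  have h2 := congrArg A.valuation h1
  rw [map_mul, valuation_eq_one_of_notMem_centre hs', mul_one] at h2
  rw [h2]
  exact valuation_coe_le_one A _

theorem mem_decompositionSubgroup_of_smul_centre {ℓ : ℕ} (hℓ : ℓ.Prime)
    {A : ValuationSubring (AlgebraicClosure ℚ)} (hA : A.LiesOverPrime ℓ)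
    {σ : AlgebraicClosure ℚ ≃ₐ[ℚ] AlgebraicClosure ℚ} (hσ : σ • centre A = centre A) :
    σ ∈ A.decompositionSubgroup ℚ := by
  rw [MulAction.mem_stabilizer_iff]
  have hσ' : σ⁻¹ • centre A = centre A := by
    rw [inv_smul_eq_iff, hσ]
  apply le_antisymm
  · intro x hx
    rw [ValuationSubring.mem_pointwise_smul_iff_inv_smul_mem] at hx
    have := smul_mem_of_smul_centre hℓ hA hσ hx
    rwa [smul_inv_smul] at this
  · intro x hx
    rw [ValuationSubring.mem_pointwise_smul_iff_inv_smul_mem]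
    exact smul_mem_of_smul_centre hℓ hA hσ' hx

/-- Every place of `ℚ̄` above a prime `ℓ` has a Frobenius element. -/
theorem exists_isFrobeniusAt_of_liesOverPrime {ℓ : ℕ} (hℓ : ℓ.Prime)
    (A : ValuationSubring (AlgebraicClosure ℚ)) (hA : A.LiesOverPrime ℓ) :
    ∃ σ : AlgebraicClosure ℚ ≃ₐ[ℚ] AlgebraicClosure ℚ, A.IsFrobeniusAt σ ℓ := by
  have hℓQ : (ℓ : integralClosure ℤ (AlgebraicClosure ℚ)) ∈ centre A := by
    rw [mem_centre_iff]
    have := A.mem_nonunits_iff.mp hA
    simpa using this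
  obtain ⟨σ, hσ, hfrob⟩ := exists_stabilizer_frobenius hℓ (centre A) hℓQ
  have hD := mem_decompositionSubgroup_of_smul_centre hℓ hA hσ
  refine ⟨σ, hD, fun x => ?_⟩
  have key : ∀ c : integralClosure ℤ (AlgebraicClosure ℚ),
      (⟨σ, hD⟩ : A.decompositionSubgroup ℚ) • IsLocalRing.residue A (inclHom A c) =
        IsLocalRing.residue A (inclHom A c) ^ ℓ := by
    intro c
    rw [← IsLocalRing.ResidueField.residue_smul, ← map_pow, ← map_pow, ← sub_eq_zero, ← map_sub,
      IsLocalRing.residue_eq_zero_iff]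
    have h1 : (⟨σ, hD⟩ : A.decompositionSubgroup ℚ) • inclHom A c - inclHom A (c ^ ℓ) =
        inclHom A (σ • c - c ^ ℓ) := by
      rw [map_sub]; rfl
    rw [h1]
    exact hfrob c
  obtain ⟨a, rfl⟩ := IsLocalRing.residue_surjective x
  obtain ⟨b, s, hs, h⟩ := exists_fraction_of_mem hℓ hA a.2
  have h1 : a * inclHom A s = inclHom A b := Subtype.ext h
  have h2 : IsLocalRing.residue A a * IsLocalRing.residue A (inclHom A s) =
      IsLocalRing.residue A (inclHom A b) := by rw [← map_mul, h1]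
  have hs0 : IsLocalRing.residue A (inclHom A s) ≠ 0 := by
    rw [Ne, IsLocalRing.residue_eq_zero_iff]
    exact hs
  have h3 := congrArg (fun y => (⟨σ, hD⟩ : A.decompositionSubgroup ℚ) • y) h2
  simp only [smul_mul', key] at h3
  rw [← h2, mul_pow] at h3
  exact mul_right_cancel₀ (pow_ne_zero _ hs0) h3

theorem exists_liesOverPrime {ℓ : ℕ} (hℓ : ℓ.Prime) :
    ∃ A : ValuationSubring (AlgebraicClosure ℚ), A.LiesOverPrime ℓ := by
  let R : Subring (AlgebraicClosure ℚ) := (algebraMap ℤ (AlgebraicClosure ℚ)).range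
  let I : Ideal R := Ideal.span {⟨(ℓ : AlgebraicClosure ℚ), ⟨(ℓ : ℤ), by simp⟩⟩}
  have hI : I ≠ ⊤ := by
    intro h
    rw [Ideal.eq_top_iff_one, Ideal.mem_span_singleton'] at h
    obtain ⟨⟨_, ⟨n, rfl⟩⟩, hn⟩ := h
    have h1 := congrArg Subtype.val hn
    have h2 : ((n * ℓ : ℤ) : AlgebraicClosure ℚ) = ((1 : ℤ) : AlgebraicClosure ℚ) := by
      push_cast
      simpa using h1
    have h3 : n * (ℓ : ℤ) = 1 := Int.cast_injective h2
    have h4 : IsUnit (ℓ : ℤ) := IsUnit.of_mul_eq_one n (by rw [mul_comm]; exact h3)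
    exact (Nat.prime_iff_prime_int.mp hℓ).not_isUnit h4
  obtain ⟨B, -, hB⟩ := Ideal.image_subset_nonunits_valuationSubring I hI
  exact ⟨B, hB ⟨_, Ideal.subset_span rfl, rfl⟩⟩

/-- For every prime `ℓ` there are a place of `ℚ̄` above `ℓ` and a Frobenius element there. -/
theorem exists_isFrobeniusAt {ℓ : ℕ} (hℓ : ℓ.Prime) :
    ∃ (A : ValuationSubring (AlgebraicClosure ℚ))
      (σ : AlgebraicClosure ℚ ≃ₐ[ℚ] AlgebraicClosure ℚ),
      A.LiesOverPrime ℓ ∧ A.IsFrobeniusAt σ ℓ := by
  obtain ⟨A, hA⟩ := exists_liesOverPrime hℓ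
  obtain ⟨σ, hσ⟩ := exists_isFrobeniusAt_of_liesOverPrime hℓ A hA
  exact ⟨A, σ, hA, hσ⟩

end Main

end Fermat.Agent.S54
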